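import Fermat.Agent.PrimeFractionalParts.Sums
import Fermat.Agent.Root.SummaryDiscrepancy
import Mathlib.NumberTheory.PrimeCounting

/-!
# The fractional parts of `α p`, with the exponent `1/5`

Along `N ≈ q ^ (5/3)` for the approximations `a / q` of `α` the discrepancy of `α p - β`, `p ≤ N`,
is `O (N ^ (4/5) log⁵ N)` (Vinogradov).
-/

set_option autoImplicit false

noncomputable section

namespace FA.PrimeFractionalParts

open Finset Filter Topology
open FA.ThreePrimes (eAdd nearDist logOne)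
open FA.Equidist (primeSet card_primeSet)
open scoped Real Nat.Prime Classical

/-- `N ^ (1/5)`. -/
def fifth (N : ℕ) : ℝ := (N : ℝ) ^ (1 / 5 : ℝ)

theorem fifth_pow (N : ℕ) : fifth N ^ 5 = N := by
  rw [fifth, ← Real.rpow_natCast, ← Real.rpow_mul (Nat.cast_nonneg N)]
  norm_num

theorem rpow_four_fifths (N : ℕ) : (N : ℝ) ^ (4 / 5 : ℝ) = fifth N ^ 4 := by
  rw [fifth, ← Real.rpow_natCast, ← Real.rpow_mul (Nat.cast_nonneg N)]
  norm_num

theorem sum_range_nth {M : Type*} [AddCommMonoid M] (f : ℕ → M) (N : ℕ) :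
    ∑ k ∈ range (π N), f (Nat.nth Nat.Prime k) = ∑ p ∈ primeSet N, f p := by
  refine sum_nbij' (fun k => Nat.nth Nat.Prime k) (fun p => Nat.count Nat.Prime p) ?_ ?_ ?_ ?_
    fun k _ => rfl
  · intro k hk
    rw [mem_range, Nat.primeCounting, Nat.primeCounting'] at hk
    simp only [Equidist.primeSet, mem_filter, mem_range]
    exact ⟨Nat.nth_lt_of_lt_count hk, Nat.nth_mem_of_infinite Nat.infinite_setOfPred_prime k⟩
  · intro p hp
    simp only [Equidist.primeSet, mem_filter, mem_range] at hp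
    rw [mem_range, Nat.primeCounting, Nat.primeCounting']
    exact Nat.count_strict_mono hp.2 hp.1
  · intro k _
    exact Nat.count_nth_of_infinite Nat.infinite_setOfPred_prime k
  · intro p hp
    simp only [Equidist.primeSet, mem_filter] at hp
    exact Nat.nth_count hp.2

/-- The primes `p ≤ N` with `α p - β` in `[A, B)` modulo one. -/
def hits (α β A B : ℝ) (N : ℕ) : Finset ℕ :=
  (primeSet N).filter fun p : ℕ => Int.fract (α * p - β) ∈ Set.Ico A B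

theorem exists_discrepancy_at : ∃ C, 0 ≤ C ∧ ∀ (q : ℕ) [NeZero q] (a : ℤ) (α : ℝ),
    IsUnit (a : ZMod q) → |α - a / q| ≤ 1 / (q : ℝ) ^ 2 → ∀ N : ℕ, 2 ≤ N →
      (q : ℝ) ≤ fifth N ^ 3 → fifth N ^ 3 ≤ 2 * q →
        ∀ β A B : ℝ, 0 ≤ A → A ≤ B → B ≤ 1 →
          |(#(hits α β A B N) : ℝ) - (π N : ℝ) * (B - A)| ≤
            C * (fifth N ^ 4 * logOne N ^ 5) := by
  refine ⟨200 + 2 * 704 * 6, by norm_num, fun q _ a α ha hα N hN hq hq' β A B hA hAB hB => ?_⟩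
  obtain ⟨t, ht⟩ : ∃ t, t = fifth N := ⟨_, rfl⟩
  rw [← ht] at hq hq' ⊢
  have ht5 : t ^ 5 = N := ht ▸ fifth_pow N
  have hN1 : (1 : ℝ) ≤ N := by exact_mod_cast (show 1 ≤ N by omega)
  have ht1 : 1 ≤ t := ht ▸ Real.one_le_rpow hN1 (by norm_num)
  obtain ⟨L, hL⟩ : ∃ L, L = logOne N := ⟨_, rfl⟩
  rw [← hL]
  have hL1 : 1 ≤ L := hL ▸ ThreePrimes.one_le_logOne N
  obtain ⟨H, hH⟩ : ∃ H, H = ⌊t⌋₊ := ⟨_, rfl⟩
  obtain ⟨K, hK⟩ : ∃ K, K = π N := ⟨_, rfl⟩
  have hK0 : 0 < K := hK ▸ by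
    rw [← card_primeSet]
    exact card_pos.2 ⟨2, mem_filter.2 ⟨mem_range.2 (by omega), Nat.prime_two⟩⟩
  have hKr : (0 : ℝ) < K := Nat.cast_pos.2 hK0
  have hKN : (K : ℝ) ≤ 2 * t ^ 5 := by
    have : K ≤ N + 1 := by
      rw [hK, ← card_primeSet]
      exact (card_filter_le _ _).trans (card_range _).le
    have h2 : (K : ℝ) ≤ N + 1 := by exact_mod_cast this
    rw [ht5]
    linarith
  obtain ⟨x, hx⟩ : ∃ x : ℕ → ℝ, x = fun k => α * (Nat.nth Nat.Prime k : ℕ) - β := ⟨_, rfl⟩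
  have het := Discrepancy.Summary.erdos_turan x hK0 H hA hAB hB
  have hcount : (#((range K).filter fun k => Int.fract (x k) ∈ Set.Ico A B) : ℝ) =
      #(hits α β A B N) := by
    rw [Nat.cast_inj, hits, card_filter, card_filter, hx, hK]
    exact sum_range_nth (fun p : ℕ =>
      if Int.fract (α * p - β) ∈ Set.Ico A B then 1 else 0) N
  have hsum : ∀ h ∈ Icc 1 H,
      ‖∑ k ∈ range K, Complex.exp ((2 * Real.pi * (h * x k) : ℝ) * Complex.I)‖ ≤
        704 * 6 * (t ^ 4 * L ^ 4) := by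
    intro h hh
    rw [mem_Icc] at hh
    have e : ∑ k ∈ range K, Complex.exp ((2 * Real.pi * (h * x k) : ℝ) * Complex.I) =
        eAdd (-((h : ℝ) * β)) * ∑ p ∈ primeSet N, eAdd (p * (h * α)) := by
      rw [mul_sum, ← sum_range_nth (fun p : ℕ => eAdd (-((h : ℝ) * β)) * eAdd (p * (h * α))) N, hK]
      refine sum_congr rfl fun k _ => ?_
      rw [← ThreePrimes.eAdd_add, hx, ThreePrimes.eAdd]
      congr 3
      ring
    rw [e, norm_mul, ThreePrimes.norm_eAdd, one_mul]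
    refine (norm_primeSet_mul_le ha hα hh.1 N).trans ?_
    rw [← hL, rpow_four_fifths, ← ht, show 704 * 6 * (t ^ 4 * L ^ 4) = 704 * (6 * t ^ 4) * L ^ 4
      by ring]
    refine mul_le_mul_of_nonneg_right (mul_le_mul_of_nonneg_left ?_ (by norm_num)) (by positivity)
    have hhr : (h : ℝ) ≤ t := (Nat.cast_le.2 hh.2).trans (hH ▸ Nat.floor_le (by linarith))
    have hq0 : (0 : ℝ) < q := Nat.cast_pos.2 (NeZero.pos q)
    have s1 : √(2 * (h : ℝ) / q) ≤ 2 / t := by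
      rw [Real.sqrt_le_left (by positivity), div_pow, div_le_div_iff₀ hq0 (by positivity)]
      calc 2 * (h : ℝ) * t ^ 2 ≤ 2 * t * t ^ 2 := by gcongr
        _ = 2 * t ^ 3 := by ring
        _ ≤ _ := by linarith
    have s2 : √((N : ℝ) * (3 * q)) ≤ 2 * t ^ 4 := by
      rw [Real.sqrt_le_left (by positivity), ← ht5]
      calc t ^ 5 * (3 * (q : ℝ)) ≤ t ^ 5 * (3 * t ^ 3) := by gcongr
        _ ≤ _ := by
          have : 0 ≤ t ^ 8 := by positivity
          linarith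
    have s3 : (N : ℝ) * √(2 * (h : ℝ) / q) ≤ 2 * t ^ 4 := by
      refine (mul_le_mul_of_nonneg_left s1 (Nat.cast_nonneg N)).trans (le_of_eq ?_)
      rw [← ht5]
      field_simp
    have : 0 ≤ t ^ 4 := by positivity
    linarith
  rw [hcount] at het
  have h1 : |(#(hits α β A B N) : ℝ) - K * (B - A)| =
      K * |(#(hits α β A B N) : ℝ) / K - (B - A)| := by
    rw [← abs_of_pos hKr, ← abs_mul, abs_of_pos hKr]
    congr 1
    field_simp
  rw [← hK, h1]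
  refine (mul_le_mul_of_nonneg_left het hKr.le).trans ?_
  rw [mul_add]
  have h2 : (K : ℝ) * (100 / ((H : ℝ) + 1)) ≤ 200 * (t ^ 4 * L ^ 5) := by
    refine (mul_le_mul hKN (div_le_div_of_nonneg_left (by norm_num) (by linarith)
      (hH ▸ (Nat.lt_floor_add_one t).le)) (by positivity) (by positivity)).trans ?_
    rw [show 2 * t ^ 5 * (100 / t) = 200 * (t ^ 4 * 1) by field_simp; ring]
    exact mul_le_mul_of_nonneg_left (mul_le_mul_of_nonneg_left (one_le_pow₀ hL1) (by positivity))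
      (by norm_num)
  have h3 : (K : ℝ) * (2 * ∑ h ∈ Icc 1 H,
      ‖∑ k ∈ range K, Complex.exp ((2 * Real.pi * (h * x k) : ℝ) * Complex.I)‖ / K / h) ≤
        2 * 704 * 6 * (t ^ 4 * L ^ 5) := by
    rw [mul_left_comm, mul_sum]
    refine (mul_le_mul_of_nonneg_left ((sum_le_sum (g := fun h : ℕ =>
      704 * 6 * (t ^ 4 * L ^ 4) * (h : ℝ)⁻¹) fun h hh => ?_).trans ?_) two_pos.le).trans
      (le_of_eq (show 2 * (704 * 6 * (t ^ 4 * L ^ 4) * L) = _ by ring))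
    · rw [mul_div_assoc', mul_div_cancel₀ _ hKr.ne', div_eq_mul_inv]
      exact mul_le_mul_of_nonneg_right (hsum h hh) (by positivity)
    · rw [← mul_sum]
      refine mul_le_mul_of_nonneg_left ?_ (by positivity)
      have h := harmonic_le_one_add_log H
      rw [harmonic_eq_sum_Icc] at h
      push_cast at h
      refine h.trans ?_
      rw [hL, ThreePrimes.logOne]
      rcases Nat.eq_zero_or_pos H with h0 | h0
      · rw [h0, Nat.cast_zero, Real.log_zero]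
        linarith [Real.log_natCast_nonneg N]
      · linarith [Real.log_le_log (Nat.cast_pos.2 h0) ((hH ▸ Nat.floor_le (by linarith) :
          (H : ℝ) ≤ t).trans ((le_self_pow₀ ht1 (by norm_num : 5 ≠ 0)).trans_eq ht5))]
  linarith

theorem exists_large_den {α : ℝ} (hα : Irrational α) (K : ℕ) :
    ∃ (q : ℕ) (a : ℤ), K < q ∧ IsUnit (a : ZMod q) ∧ |α - a / q| ≤ 1 / (q : ℝ) ^ 2 := by
  by_contra hne
  push Not at hne
  obtain ⟨S, hS⟩ : ∃ S : Set (ℤ × ℕ), S = Set.Icc (-((⌊|α|⌋₊ + 2 : ℕ) * K : ℤ))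
      ((⌊|α|⌋₊ + 2 : ℕ) * K) ×ˢ Set.Iic K := ⟨_, rfl⟩
  refine (Real.infinite_rat_abs_sub_lt_one_div_den_sq_of_irrational hα)
    (Set.Finite.subset ((hS ▸ (Set.finite_Icc _ _).prod (Set.finite_Iic K) : S.Finite).image
      fun x => (x.1 : ℚ) / x.2) fun ρ hρ => ?_)
  have hden : ρ.den ≤ K := by
    by_contra hlt
    rw [not_le] at hlt
    have hu : IsUnit (ρ.num : ZMod ρ.den) := by
      rw [ZMod.coe_int_isUnit_iff_isCoprime, isCoprime_comm, Int.isCoprime_iff_nat_coprime]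
      simpa using ρ.reduced
    have h1 := hne ρ.den ρ.num hlt hu
    rw [← Rat.cast_def] at h1
    exact absurd (le_of_lt hρ) (not_le.2 h1)
  refine ⟨(ρ.num, ρ.den), ?_, Rat.num_div_den ρ⟩
  rw [hS, Set.mem_prod, Set.mem_Icc, Set.mem_Iic]
  refine ⟨abs_le.1 ?_, hden⟩
  have hd0 : (0 : ℝ) < ρ.den := Nat.cast_pos.2 ρ.den_pos
  have h2 : |(ρ : ℝ)| ≤ |α| + 1 := by
    have h3 : (1 : ℝ) / (ρ.den : ℝ) ^ 2 ≤ 1 :=
      (div_le_one (by positivity)).2 (one_le_pow₀ (by exact_mod_cast ρ.den_pos))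
    have h4 := abs_sub_abs_le_abs_sub (ρ : ℝ) α
    rw [abs_sub_comm] at h4
    linarith [show |α - ρ| < 1 / (ρ.den : ℝ) ^ 2 from hρ]
  rw [Rat.cast_def, abs_div, Nat.abs_cast, div_le_iff₀ hd0, ← Int.cast_abs] at h2
  have h5 : ((|ρ.num| : ℤ) : ℝ) ≤ ((((⌊|α|⌋₊ + 2 : ℕ) * K : ℤ)) : ℝ) := by
    refine h2.trans ?_
    push_cast
    refine mul_le_mul ?_ (Nat.cast_le.2 hden) hd0.le (by positivity)
    linarith [(Nat.lt_floor_add_one |α|).le]
  exact_mod_cast h5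

theorem exists_big_mod : ∃ C, 0 ≤ C ∧ ∀ α : ℝ, Irrational α → ∀ N₀ : ℕ, ∃ N : ℕ, N₀ ≤ N ∧
    2 ≤ N ∧ ∀ β A B : ℝ, 0 ≤ A → A ≤ B → B ≤ 1 →
      |(#(hits α β A B N) : ℝ) - (π N : ℝ) * (B - A)| ≤
        C * ((N : ℝ) ^ (4 / 5 : ℝ) * Real.log N ^ 5) := by
  obtain ⟨C, hC, h⟩ := exists_discrepancy_at
  refine ⟨3 ^ 5 * C, by positivity, fun α hα N₀ => ?_⟩
  obtain ⟨q, a, hq, ha, hqa⟩ := exists_large_den hα (max N₀ 2)
  have : NeZero q := ⟨by omega⟩
  have hq1 : (1 : ℝ) ≤ q := by exact_mod_cast NeZero.one_le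
  obtain ⟨N, hN⟩ : ∃ N, N = ⌈(q : ℝ) ^ (5 / 3 : ℝ)⌉₊ := ⟨_, rfl⟩
  have hqN : q ≤ N := by
    refine Nat.cast_le.1 (le_trans ?_ (hN ▸ Nat.le_ceil ((q : ℝ) ^ (5 / 3 : ℝ))))
    exact Real.self_le_rpow_of_one_le hq1 (by norm_num)
  have hN2 : 2 ≤ N := by omega
  refine ⟨N, by omega, hN2, fun β A B hA hAB hB => ?_⟩
  have hcube : fifth N ^ 3 = (N : ℝ) ^ (3 / 5 : ℝ) := by
    rw [fifth, ← Real.rpow_natCast, ← Real.rpow_mul (Nat.cast_nonneg N)]
    norm_num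
  have hqpow : ((q : ℝ) ^ (5 / 3 : ℝ)) ^ (3 / 5 : ℝ) = q := by
    rw [← Real.rpow_mul (by linarith)]
    norm_num
  have h1 : (q : ℝ) ≤ fifth N ^ 3 := by
    rw [hcube, ← hqpow]
    exact Real.rpow_le_rpow (by positivity) (hN ▸ Nat.le_ceil _) (by norm_num)
  have h2 : fifth N ^ 3 ≤ 2 * q := by
    have h3 : (N : ℝ) ≤ 2 * (q : ℝ) ^ (5 / 3 : ℝ) := by
      have := Nat.ceil_lt_add_one (show (0 : ℝ) ≤ (q : ℝ) ^ (5 / 3 : ℝ) by positivity)
      rw [← hN] at this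
      linarith [Real.one_le_rpow hq1 (show (0 : ℝ) ≤ 5 / 3 by norm_num)]
    rw [hcube]
    refine (Real.rpow_le_rpow (Nat.cast_nonneg N) h3 (by norm_num)).trans ?_
    rw [Real.mul_rpow two_pos.le (by positivity), hqpow]
    exact mul_le_mul_of_nonneg_right (Real.rpow_le_self_of_one_le one_le_two (by norm_num))
      (Nat.cast_nonneg q)
  refine (h q a α ha hqa N hN2 h1 h2 β A B hA hAB hB).trans ?_
  rw [← rpow_four_fifths, show 3 ^ 5 * C * ((N : ℝ) ^ (4 / 5 : ℝ) * Real.log N ^ 5) =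
    C * ((N : ℝ) ^ (4 / 5 : ℝ) * (3 * Real.log N) ^ 5) by ring]
  have hl : 0.69 ≤ Real.log N := by
    have := Real.log_le_log two_pos (show (2 : ℝ) ≤ N by exact_mod_cast hN2)
    linarith [Real.log_two_gt_d9]
  gcongr
  · linarith [ThreePrimes.one_le_logOne N]
  · unfold ThreePrimes.logOne
    linarith

theorem eventually_primeCounting_ge :
    ∀ᶠ N : ℕ in atTop, (N : ℝ) ≤ 2 * Real.log N * (π N : ℝ) := by
  filter_upwards [(PNT.Summary.prime_number_theorem.comp tendsto_natCast_atTop_atTop).eventually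
    (lt_mem_nhds (show (1 / 2 : ℝ) < 1 by norm_num)), eventually_ge_atTop 2] with N hN h2
  simp only [Function.comp_apply, Nat.floor_natCast] at hN
  rw [lt_div_iff₀ (by positivity)] at hN
  linarith

theorem eventually_log_pow_le (k : ℕ) {c : ℝ} (hc : 0 < c) :
    ∀ᶠ N : ℕ in atTop, Real.log N ^ k ≤ c * fifth N := by
  filter_upwards [((isLittleO_log_rpow_rpow_atTop (k : ℝ)
    (show (0 : ℝ) < 1 / 5 by norm_num)).bound hc).natCast_atTop, eventually_ge_atTop 1] with N hN h1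
  have hl : 0 ≤ Real.log N := Real.log_natCast_nonneg N
  rw [Real.norm_of_nonneg (Real.rpow_nonneg hl _), Real.rpow_natCast,
    Real.norm_of_nonneg (Real.rpow_nonneg (Nat.cast_nonneg N) _)] at hN
  exact hN

/-- **`‖α p - β‖ ≤ C p ^ (-1/5) log⁶ p` infinitely often.** -/
theorem exists_near : ∃ C, 0 ≤ C ∧ ∀ α β : ℝ, Irrational α →
    {p : ℕ | p.Prime ∧ nearDist (α * p - β) ≤
      C * ((p : ℝ) ^ (-(1 / 5) : ℝ) * Real.log p ^ 6)}.Infinite := by
  obtain ⟨C, hC, h⟩ := exists_big_mod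
  refine ⟨64 * (2 * (C + 2)), by positivity, fun α β hα =>
    Set.infinite_of_forall_exists_gt fun K => ?_⟩
  obtain ⟨N₁, hN₁⟩ := (eventually_primeCounting_ge.and (eventually_log_pow_le 6
    (show (0 : ℝ) < 1 / (2 * (C + 2)) by positivity))).exists_forall_of_atTop
  obtain ⟨N, hN, hN2, hbound⟩ := h α hα (max N₁ (max 3 ((K + 1) ^ 2)))
  obtain ⟨hpi, hlog⟩ := hN₁ N (le_trans (le_max_left _ _) hN)
  have hN3 : 3 ≤ N := le_trans ((le_max_left _ _).trans (le_max_right _ _)) hN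
  have hKN : (K + 1) ^ 2 ≤ N := le_trans ((le_max_right _ _).trans (le_max_right _ _)) hN
  obtain ⟨l, hl⟩ : ∃ l, l = Real.log N := ⟨_, rfl⟩
  obtain ⟨t, ht⟩ : ∃ t, t = fifth N := ⟨_, rfl⟩
  rw [← hl] at hpi hlog
  rw [← ht] at hlog
  have hl1 : 1 ≤ l := by
    rw [hl, Real.le_log_iff_exp_le (Nat.cast_pos.2 (by omega))]
    have : (3 : ℝ) ≤ N := by exact_mod_cast hN3
    linarith [Real.exp_one_lt_d9]
  have hN1 : (1 : ℝ) ≤ N := by exact_mod_cast (show 1 ≤ N by omega)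
  have ht1 : 1 ≤ t := ht ▸ Real.one_le_rpow hN1 (by norm_num)
  have ht0 : 0 < t := by linarith
  have ht5 : t ^ 5 = N := ht ▸ fifth_pow N
  obtain ⟨δ, hδ⟩ : ∃ δ, δ = 2 * (C + 2) * l ^ 6 / t := ⟨_, rfl⟩
  have hδ1 : δ ≤ 1 := by
    rw [hδ, div_le_one ht0]
    rw [div_mul_eq_mul_div, one_mul, le_div_iff₀ (by positivity)] at hlog
    linarith
  have hδ0 : 0 ≤ δ := hδ ▸ by positivity
  have hb := (abs_le.1 (hbound β 0 δ le_rfl hδ0 hδ1)).1
  rw [sub_zero, ← hl, rpow_four_fifths, ← ht] at hb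
  have hmain : (C + 2) * (t ^ 4 * l ^ 5) ≤ (π N : ℝ) * δ := by
    rw [hδ]
    have h1 := mul_le_mul_of_nonneg_right hpi
      (show 0 ≤ (C + 2) * l ^ 5 / t by positivity)
    calc (C + 2) * (t ^ 4 * l ^ 5) = t ^ 5 * ((C + 2) * l ^ 5 / t) := by field_simp
      _ ≤ 2 * l * (π N : ℝ) * ((C + 2) * l ^ 5 / t) := by rw [ht5]; exact h1
      _ = _ := by ring
  have hbig : 2 * t ^ 4 ≤ (#(hits α β 0 δ N) : ℝ) := by
    have h1 : t ^ 4 * 1 ≤ t ^ 4 * l ^ 5 :=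
      mul_le_mul_of_nonneg_left (one_le_pow₀ hl1) (by positivity)
    linarith
  obtain ⟨p, hp, hpN⟩ : ∃ p ∈ hits α β 0 δ N, N < p ^ 2 := by
    by_contra hno
    push Not at hno
    have hsub : hits α β 0 δ N ⊆ (Icc 1 (Nat.sqrt N)) := fun p hp => by
      have h1 := hno p hp
      simp only [hits, Equidist.primeSet, mem_filter] at hp
      exact mem_Icc.2 ⟨hp.1.2.one_le, Nat.le_sqrt'.2 h1⟩
    have h2 : (#(hits α β 0 δ N) : ℝ) ≤ √(N : ℝ) := by
      refine (Nat.cast_le.2 ((card_le_card hsub).trans_eq (Nat.card_Icc 1 _))).trans ?_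
      rw [Nat.add_sub_cancel]
      exact Real.nat_sqrt_le_real_sqrt
    have h3 : √(N : ℝ) ≤ t ^ 4 := by
      rw [Real.sqrt_le_left (by positivity), ← ht5, ← pow_mul]
      exact pow_le_pow_right₀ ht1 (by norm_num)
    have : 1 ≤ t ^ 4 := one_le_pow₀ ht1
    linarith
  simp only [hits, Equidist.primeSet, mem_filter, mem_range] at hp
  obtain ⟨⟨hpN', hpp⟩, hfr⟩ := hp
  refine ⟨p, ⟨hpp, ?_⟩, ?_⟩
  · have hp0 : (0 : ℝ) < p := Nat.cast_pos.2 hpp.pos
    have hpl : l ≤ 2 * Real.log p := by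
      have h1 : (N : ℝ) ≤ (p : ℝ) ^ 2 := by exact_mod_cast hpN.le
      have h2 := Real.log_le_log (Nat.cast_pos.2 (show 0 < N by omega)) h1
      rw [Real.log_pow, ← hl] at h2
      exact_mod_cast h2
    have hpt : 1 / t ≤ (p : ℝ) ^ (-(1 / 5) : ℝ) := by
      rw [ht, fifth, one_div, ← Real.rpow_neg (Nat.cast_nonneg N)]
      exact Real.rpow_le_rpow_of_nonpos hp0 (Nat.cast_le.2 (Nat.lt_succ_iff.1 hpN')) (by norm_num)
    refine le_trans (le_trans ?_ hfr.2.le) ?_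
    · refine (ThreePrimes.nearDist_le_abs_sub _ ⌊α * p - β⌋).trans (le_of_eq ?_)
      rw [← Int.fract, abs_of_nonneg (Int.fract_nonneg _)]
    · rw [hδ, show 64 * (2 * (C + 2)) * ((p : ℝ) ^ (-(1 / 5) : ℝ) * Real.log p ^ 6) =
        2 * (C + 2) * (2 * Real.log p) ^ 6 * (p : ℝ) ^ (-(1 / 5) : ℝ) by ring,
        div_eq_mul_one_div]
      exact mul_le_mul (mul_le_mul_of_nonneg_left (pow_le_pow_left₀ (by linarith) hpl 6)
        (by positivity)) hpt (by positivity) (by positivity)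
  · have h1 : (K + 1) ^ 2 < p ^ 2 := lt_of_le_of_lt hKN hpN
    have := lt_of_pow_lt_pow_left₀ 2 (Nat.zero_le p) h1
    omega

end FA.PrimeFractionalParts

end
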