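import Fermat.Agent.Equidistribution.Primes

/-!
# Exponential sums over primes at the multiples of a real number near a rational

If `|α - a / q| ≤ 1 / q²` then `h α` has an approximation with denominator between `q / (2 h)` and
`3 q`, so `∑_{p ≤ N} e (h α p)` is small by Vaughan's bound.
-/

set_option autoImplicit false

noncomputable section

namespace FA.PrimeFractionalParts

open Finset
open FA.ThreePrimes (eAdd norm_eAdd twist logOne)
open FA.Equidist (primeSet)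
open scoped Real ArithmeticFunction.vonMangoldt

/-- Removing the logarithms. -/
theorem norm_primeSet_sum_le (θ : ℝ) (N : ℕ) {E : ℝ}
    (hE : ∀ j ≤ N, ‖∑ p ∈ primeSet j, (Real.log p : ℂ) * eAdd (p * θ)‖ ≤ E) :
    ‖∑ p ∈ primeSet N, eAdd (p * θ)‖ ≤ 2 * E := by
  obtain ⟨w, hw⟩ : ∃ w : ℕ → ℝ, w = fun n : ℕ => 1 / Real.log (max n 2 : ℕ) := ⟨_, rfl⟩
  have hlog : ∀ n : ℕ, 0 < Real.log ((max n 2 : ℕ) : ℝ) := fun n =>
    Real.log_pos (by exact_mod_cast lt_of_lt_of_le one_lt_two (le_max_right n 2))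
  have hwanti : ∀ n : ℕ, w (n + 1) ≤ w n := fun n => by
    rw [hw]
    exact one_div_le_one_div_of_le (hlog n) (Real.log_le_log
      (Nat.cast_pos.2 (lt_of_lt_of_le two_pos (le_max_right n 2)))
      (Nat.cast_le.2 (max_le_max (Nat.le_succ n) le_rfl)))
  obtain ⟨C, hC⟩ : ∃ C : ℕ → ℂ, C = fun j : ℕ =>
      ∑ p ∈ primeSet j, (Real.log p : ℂ) * eAdd (p * θ) := ⟨_, rfl⟩
  have hset : ∀ j : ℕ, primeSet (j + 1) =
      if (j + 1).Prime then insert (j + 1) (primeSet j) else primeSet j := fun j => by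
    simp only [Equidist.primeSet]
    rw [range_add_one (n := j + 1), filter_insert]
  have hne : ∀ j : ℕ, j + 1 ∉ primeSet j := fun j h => by
    simp only [Equidist.primeSet, mem_filter, mem_range] at h
    omega
  have key : ∀ j : ℕ, j ≤ N → ‖(∑ p ∈ primeSet j, eAdd (p * θ)) - C j * (w (j + 1) : ℂ)‖ ≤
      E * (w 1 - w (j + 1)) := by
    intro j
    induction j with
    | zero =>
      intro _
      simp [hC, Equidist.primeSet, Nat.not_prime_zero, filter_singleton, range_one]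
    | succ j ih =>
      intro hj
      have h1 : (∑ p ∈ primeSet (j + 1), eAdd (p * θ)) - C (j + 1) * (w (j + 1 + 1) : ℂ) =
          ((∑ p ∈ primeSet j, eAdd (p * θ)) - C j * (w (j + 1) : ℂ)) +
            C (j + 1) * ((w (j + 1) - w (j + 1 + 1) : ℝ) : ℂ) := by
        rw [hC]
        simp only [hset j]
        split_ifs with hp
        · rw [sum_insert (hne j), sum_insert (hne j)]
          have e : (Real.log (j + 1 : ℕ) : ℂ) * (w (j + 1) : ℂ) = 1 := by
            have h2 : max (j + 1) 2 = j + 1 := max_eq_left hp.two_le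
            have h3 := (hlog (j + 1)).ne'
            rw [h2] at h3
            rw [hw, ← Complex.ofReal_mul]
            simp only [h2, mul_one_div, div_self h3, Complex.ofReal_one]
          rw [Complex.ofReal_sub]
          linear_combination (-eAdd ((j + 1 : ℕ) * θ)) * e
        · push_cast
          ring
      rw [h1]
      refine (norm_add_le _ _).trans ((add_le_add (ih (by omega)) (le_of_le_of_eq ?_
        (show E * (w (j + 1) - w (j + 1 + 1)) = _ from rfl))).trans (le_of_eq (by ring)))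
      rw [norm_mul, Complex.norm_real, Real.norm_of_nonneg (sub_nonneg.2 (hwanti _))]
      exact mul_le_mul_of_nonneg_right (hC ▸ hE (j + 1) hj) (sub_nonneg.2 (hwanti _))
  have h2 := norm_le_norm_sub_add (∑ p ∈ primeSet N, eAdd (p * θ)) (C N * (w (N + 1) : ℂ))
  have h3 : ‖C N * (w (N + 1) : ℂ)‖ ≤ E * w (N + 1) := by
    have hw0 : 0 ≤ w (N + 1) := hw ▸ (one_div_pos.2 (hlog _)).le
    rw [norm_mul, Complex.norm_real, Real.norm_of_nonneg hw0]
    exact mul_le_mul_of_nonneg_right (hC ▸ hE N le_rfl) hw0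
  have hw1 : w 1 ≤ 2 := by
    rw [hw]
    simp only
    norm_num
    rw [inv_le_comm₀ (Real.log_pos one_lt_two) two_pos]
    linarith [Real.log_two_gt_d9]
  have hE0 : 0 ≤ E := (norm_nonneg _).trans (hE N le_rfl)
  have h4 := mul_le_mul_of_nonneg_left hw1 hE0
  linarith [key N le_rfl]

theorem norm_log_sum_le (θ : ℝ) {q : ℕ} [NeZero q] {a : ℤ} (ha : IsUnit (a : ZMod q))
    (hθ : |θ - a / q| ≤ 1 / (q : ℝ) ^ 2) {j N : ℕ} (hj : j ≤ N) :
    ‖∑ p ∈ primeSet j, (Real.log p : ℂ) * eAdd (p * θ)‖ ≤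
      352 * ((N : ℝ) / √(q : ℝ) + (N : ℝ) ^ (4 / 5 : ℝ) + √((N : ℝ) * q)) * logOne N ^ 4 := by
  have hjr : (j : ℝ) ≤ N := Nat.cast_le.2 hj
  have hL : 1 ≤ logOne N := ThreePrimes.one_le_logOne N
  rcases Nat.eq_zero_or_pos j with rfl | hj0
  · simp [Equidist.primeSet, Nat.not_prime_zero, filter_singleton, range_one]
    positivity
  have hj1 : (1 : ℝ) ≤ j := by exact_mod_cast hj0
  have hlj : logOne j ≤ logOne N := by
    unfold ThreePrimes.logOne
    linarith [Real.log_le_log (by linarith) hjr]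
  have h1 := ThreePrimes.norm_vonMangoldt_twist_le (N := j) ha hθ
  have h2 : Chebyshev.psi j - Chebyshev.theta j ≤ 2 * √(j : ℝ) * Real.log j :=
    (le_abs_self _).trans (Chebyshev.abs_psi_sub_theta_le_sqrt_mul_log hj1)
  have h3 : √(j : ℝ) ≤ (N : ℝ) ^ (4 / 5 : ℝ) := by
    rw [Real.sqrt_eq_rpow]
    exact (Real.rpow_le_rpow_of_exponent_le hj1 (by norm_num)).trans
      (Real.rpow_le_rpow (by linarith) hjr (by norm_num))
  have h4 : Real.log j ≤ logOne N ^ 4 := by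
    refine le_trans ?_ (le_self_pow₀ hL (by norm_num))
    unfold ThreePrimes.logOne
    linarith [Real.log_le_log (by linarith) hjr]
  have h5 : 2 * √(j : ℝ) * Real.log j ≤
      2 * ((N : ℝ) / √(q : ℝ) + (N : ℝ) ^ (4 / 5 : ℝ) + √((N : ℝ) * q)) * logOne N ^ 4 := by
    refine mul_le_mul (mul_le_mul_of_nonneg_left ?_ two_pos.le) h4 (Real.log_nonneg hj1)
      (by positivity)
    have : 0 ≤ (N : ℝ) / √(q : ℝ) + √((N : ℝ) * q) := by positivity
    linarith
  have h6 : 350 * ((j : ℝ) / √(q : ℝ) + (j : ℝ) ^ (4 / 5 : ℝ) + √((j : ℝ) * q)) * logOne j ^ 4 ≤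
      350 * ((N : ℝ) / √(q : ℝ) + (N : ℝ) ^ (4 / 5 : ℝ) + √((N : ℝ) * q)) * logOne N ^ 4 := by
    have h0 : 0 ≤ logOne j := by linarith [ThreePrimes.one_le_logOne j]
    gcongr
  refine (Equidist.norm_sum_log_le θ j).trans ?_
  linarith

/-- An approximation of `h α` with a denominator that is not small. -/
theorem exists_approx_mul {q : ℕ} [NeZero q] {a : ℤ} {α : ℝ} (ha : IsUnit (a : ZMod q))
    (hα : |α - a / q| ≤ 1 / (q : ℝ) ^ 2) {h : ℕ} (hh : 0 < h) :
    ∃ (s : ℕ) (b : ℤ), 0 < s ∧ q ≤ 2 * h * s ∧ s ≤ 3 * q ∧ IsUnit (b : ZMod s) ∧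
      |h * α - b / s| ≤ 1 / (s : ℝ) ^ 2 := by
  obtain ⟨ρ, hρ, hρn⟩ := Real.exists_rat_abs_sub_le_and_den_le ((h : ℝ) * α)
    (Nat.mul_pos three_pos (NeZero.pos q))
  obtain ⟨s, hs⟩ : ∃ s, s = ρ.den := ⟨_, rfl⟩
  have hs0 : 0 < s := hs ▸ ρ.den_pos
  have hunit : IsUnit (ρ.num : ZMod s) := by
    rw [ZMod.coe_int_isUnit_iff_isCoprime, isCoprime_comm, Int.isCoprime_iff_nat_coprime, hs]
    simpa using ρ.reduced
  rw [show (ρ : ℝ) = (ρ.num : ℝ) / s by rw [hs, Rat.cast_def], ← hs] at hρ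
  have hsr : (0 : ℝ) < s := Nat.cast_pos.2 hs0
  have hqr : (0 : ℝ) < q := Nat.cast_pos.2 (NeZero.pos q)
  have hhr : (0 : ℝ) < h := Nat.cast_pos.2 hh
  have hsq : (s : ℝ) ≤ ((3 * q : ℕ) : ℝ) := Nat.cast_le.2 (hs ▸ hρn)
  refine ⟨s, ρ.num, hs0, ?_, hs ▸ hρn, hunit, hρ.trans ?_⟩
  · by_contra hlt
    rw [not_le] at hlt
    have hne : a * (h * s : ℤ) - ρ.num * q ≠ 0 := by
      intro h0
      have hd : (q : ℤ) ∣ a * (h * s : ℤ) := ⟨ρ.num, by linarith⟩
      have hcop : IsCoprime (q : ℤ) a := by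
        rwa [ZMod.coe_int_isUnit_iff_isCoprime] at ha
      have h1 : q ∣ h * s := by
        exact_mod_cast hcop.dvd_of_dvd_mul_left hd
      have h2 := Nat.le_of_dvd (Nat.mul_pos hh hs0) h1
      have h3 : 2 * h * s = 2 * (h * s) := mul_assoc 2 h s
      omega
    have h1 : (1 : ℝ) ≤ |(((a * (h * s : ℤ) - ρ.num * q : ℤ)) : ℝ)| := by
      rw [← Int.cast_abs]
      exact_mod_cast Int.one_le_abs hne
    have h2 : (1 : ℝ) / (q * (h * s)) ≤
        |α - a / q| + |α - (ρ.num : ℝ) / (h * s)| := by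
      refine le_trans (b := |(((a * (h * s : ℤ) - ρ.num * q : ℤ)) : ℝ)| / (q * (h * s))) ?_
        (le_trans (le_of_eq ?_) (abs_sub _ _))
      · exact div_le_div_of_nonneg_right h1 (by positivity)
      · rw [← abs_of_pos (show (0 : ℝ) < q * (h * s) by positivity), ← abs_div, abs_sub_comm]
        congr 1
        push_cast
        field_simp
        ring
    have h3 : |α - (ρ.num : ℝ) / (h * s)| ≤ 1 / ((3 * q + 1) * s) / h := by
      rw [show α - (ρ.num : ℝ) / (h * s) = ((h : ℝ) * α - (ρ.num : ℝ) / s) / h by field_simp,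
        abs_div, Nat.abs_cast]
      refine div_le_div_of_nonneg_right (hρ.trans (le_of_eq ?_)) hhr.le
      push_cast
      ring
    have h4 : 1 / ((3 * (q : ℝ) + 1) * s) / h ≤ 1 / (3 * (q * (h * s))) := by
      rw [div_div]
      refine one_div_le_one_div_of_le (by positivity) ?_
      have : (0 : ℝ) ≤ (s : ℝ) * h := by positivity
      linarith
    have h5 : 2 / (3 * ((q : ℝ) * (h * s))) ≤ 1 / (q : ℝ) ^ 2 := by
      rw [show (2 : ℝ) / (3 * (q * (h * s))) = 1 / (q * (h * s)) - 1 / (3 * (q * (h * s))) by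
        field_simp; ring]
      linarith
    rw [div_le_div_iff₀ (by positivity) (by positivity), one_mul] at h5
    have h6 : ((2 * h * s : ℕ) : ℝ) < q := Nat.cast_lt.2 hlt
    push_cast at h6
    have h7 := mul_lt_mul_of_pos_left h6 hqr
    have : (0 : ℝ) < q * q := by positivity
    linarith
  · rw [sq]
    refine one_div_le_one_div_of_le (by positivity) (mul_le_mul_of_nonneg_right ?_ hsr.le)
    linarith

/-- **The sum at `h α`.** -/
theorem norm_primeSet_mul_le {q : ℕ} [NeZero q] {a : ℤ} {α : ℝ} (ha : IsUnit (a : ZMod q))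
    (hα : |α - a / q| ≤ 1 / (q : ℝ) ^ 2) {h : ℕ} (hh : 0 < h) (N : ℕ) :
    ‖∑ p ∈ primeSet N, eAdd (p * (h * α))‖ ≤ 704 * ((N : ℝ) * √(2 * (h : ℝ) / q) +
      (N : ℝ) ^ (4 / 5 : ℝ) + √((N : ℝ) * (3 * q))) * logOne N ^ 4 := by
  obtain ⟨s, b, hs0, hqs, hs3, hb, hθ⟩ := exists_approx_mul ha hα hh
  have : NeZero s := ⟨hs0.ne'⟩
  have hL : 0 ≤ logOne N ^ 4 := pow_nonneg (by linarith [ThreePrimes.one_le_logOne N]) 4
  refine (norm_primeSet_sum_le _ N fun j hj => norm_log_sum_le _ hb hθ hj).trans ?_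
  rw [show 2 * (352 * ((N : ℝ) / √(s : ℝ) + (N : ℝ) ^ (4 / 5 : ℝ) + √((N : ℝ) * s)) *
    logOne N ^ 4) = 704 * ((N : ℝ) / √(s : ℝ) + (N : ℝ) ^ (4 / 5 : ℝ) + √((N : ℝ) * s)) *
      logOne N ^ 4 by ring]
  have hsr : (0 : ℝ) < s := Nat.cast_pos.2 hs0
  have h1 : (N : ℝ) / √(s : ℝ) ≤ N * √(2 * (h : ℝ) / q) := by
    rw [div_eq_mul_inv, ← Real.sqrt_inv]
    refine mul_le_mul_of_nonneg_left (Real.sqrt_le_sqrt ?_) (Nat.cast_nonneg N)
    rw [inv_eq_one_div, div_le_div_iff₀ hsr (Nat.cast_pos.2 (NeZero.pos q)), one_mul]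
    exact_mod_cast hqs
  have h2 : √((N : ℝ) * s) ≤ √((N : ℝ) * (3 * q)) :=
    Real.sqrt_le_sqrt (mul_le_mul_of_nonneg_left (by exact_mod_cast hs3) (Nat.cast_nonneg N))
  gcongr

end FA.PrimeFractionalParts

end
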